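/-
Lib / PicDiv (helper49): `Pic0` of a function field of one variable over an algebraically closed field
of characteristic zero is a DIVISIBLE group.
File `Complex`: the case `K = ℂ` (the Abel-Jacobi homomorphism of S27 is surjective).
-/
import Fermat.Agent.S27.CaseC

set_option autoImplicit false
set_option linter.unusedSectionVars false

noncomputable section

namespace Fermat.Agent.Lib.PicDiv

open AlgebraicCurve Fermat.Agent.S24.FF Fermat.Agent.S27 Filter Topology
open Fermat.Agent.S27.E (weakTopology IsNhdChart compactSpace_place chart_c_mem_dom)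

variable {F : Type*} [Field F] [Algebra ℂ F] [IsFF1 ℂ F] [NonConst ℂ F]

attribute [local instance] weakTopology

/-- The Abel-Jacobi homomorphism is surjective. -/
theorem surjective_of_abelJacobi
    (hchart : ∀ p : Place ℂ F, ∃ χ : Chart F, χ.pl χ.c = p ∧ IsNhdChart χ)
    (E : (Fin (genusFF ℂ F) → ℂ) →+ Pic0 ℂ F)
    (hE : ∀ χ : Chart F, ∃ A : ℂ → (Fin (genusFF ℂ F) → ℂ), ContinuousOn A χ.dom ∧
      ∀ τ ∈ χ.dom, ∀ τ' ∈ χ.dom, cls (pt (χ.pl τ) - pt (χ.pl τ')) = E (A τ - A τ')) :
    Function.Surjective E := by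
  classical
  have : CompactSpace (Place ℂ F) := compactSpace_place
  have : Infinite (Place ℂ F) := infinite_place (K := ℂ)
  obtain ⟨P0⟩ : Nonempty (Place ℂ F) := inferInstance
  have hrange : ∀ v : Place ℂ F, cls (pt v - pt P0) ∈ E.range := by
    intro v
    have key := S27.E.eq_of_const_on_charts
      (fun w : Place ℂ F => (QuotientAddGroup.mk (cls (pt w - pt P0)) : Pic0 ℂ F ⧸ E.range))
      (fun p => by
        obtain ⟨χ, hχ, hn⟩ := hchart p
        refine ⟨χ, hχ, hn, fun τ hτ => ?_⟩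
        obtain ⟨A, -, hA⟩ := hE χ
        have h1 := hA τ hτ χ.c (chart_c_mem_dom χ)
        rw [hχ] at h1
        rw [QuotientAddGroup.eq]
        refine ⟨A χ.c - A τ, ?_⟩
        have h2 : pt (χ.pl τ) - pt p = (pt (χ.pl τ) - pt P0) - (pt p - pt P0) := by abel
        rw [h2, cls_sub (degree_pt_sub_pt _ _) (degree_pt_sub_pt _ _)] at h1
        have h3 : A χ.c - A τ = -(A τ - A χ.c) := by abel
        rw [h3, map_neg, ← h1]
        abel) P0 v
    simp only [cls_pt_sub_pt_self] at key
    rw [QuotientAddGroup.mk_zero, QuotientAddGroup.eq_zero_iff] at key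
    exact key
  have htop := pic0_eq_top_of_forall_mem E.range P0 hrange
  intro y
  have hy : y ∈ E.range := by rw [htop]; exact AddSubgroup.mem_top y
  exact hy

/-- `Pic0` of a complex function field is divisible. -/
theorem exists_nsmul_eq_complex (n : ℕ) (hn : 0 < n) (c : Pic0 ℂ F) : ∃ d : Pic0 ℂ F, n • d = c := by
  let ω : Module.Basis (Fin (genusFF ℂ F)) ℂ (WDiff ℂ F) :=
    Module.finBasisOfFinrankEq ℂ (WDiff ℂ F) finrank_wdiff
  obtain ⟨E₁, -, hE⟩ := exists_abel ω
  obtain ⟨u, rfl⟩ := surjective_of_abelJacobi exists_chart_nhd E₁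
    (fun χ => ⟨χ.ab ω, continuousOn_ab χ ω, hE χ⟩) c
  refine ⟨E₁ ((n : ℂ)⁻¹ • u), ?_⟩
  rw [← map_nsmul]
  congr 1
  rw [← Nat.cast_smul_eq_nsmul ℂ, smul_smul, mul_inv_cancel₀ (Nat.cast_ne_zero.2 hn.ne'), one_smul]

end Fermat.Agent.Lib.PicDiv
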