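/-
Lib / PicDiv (helper49): `Pic0` of a function field of one variable over an algebraically closed field
of characteristic zero is a DIVISIBLE group.
File `Rigidity`: a class of the big field whose stabiliser in `Aut(K'/K)` has finite index comes from
the small field (the proof of `S27.H.exists_pic0Map_eq`, which only uses that finite index);
consequence: division by `n` descends.
-/
import Fermat.Agent.S27.H.Rigidity

set_option autoImplicit false

noncomputable section

namespace Fermat.Agent.Lib.PicDiv

open AlgebraicCurve Fermat.Agent.S24.FF IntermediateField Fermat.Agent.S27 Fermat.Agent.S27.H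
open scoped TensorProduct

variable {K F K' F' : Type*} [Field K] [Field F] [Field K'] [Field F']
  [Algebra K F] [Algebra K K'] [Algebra K' F'] [Algebra F F'] [Algebra K F']
  [IsScalarTower K F F'] [IsScalarTower K K' F']
  [IsAlgClosed K] [CharZero K] [IsAlgClosed K'] [CharZero K'] [IsFF1 K F] [IsFF1 K' F']
  [IsConstExt K F K' F']

/-- A class whose stabiliser in `Aut(K'/K)` has finite index comes from the small field. -/
theorem exists_pic0Map_eq_of_finiteIndex (hF : ∃ x : F, Transcendental K x)
    (hR' : RiemannThm K' F') (c : Pic0 K' F')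
    (hΓc : ((MulAction.stabilizer (SemiAut K' F') c).comap (conj K F K' F')).FiniteIndex) :
    ∃ c₀ : Pic0 K F, pic0Map K F K' F' c₀ = c := by
  classical
  set φ := conj K F K' F' with hφ
  set Γc := (MulAction.stabilizer (SemiAut K' F') c).comap φ with hΓcdef
  obtain ⟨D', rfl⟩ := Pic0.mk_surjective c
  obtain ⟨v0⟩ := exists_place hF
  set P0 := eps K' F' v0 with hP0
  obtain ⟨m, E, hE0, hEp, huniq⟩ := exists_unique_effective hR' (D' : Divisor K' F') P0
  -- `Γc` fixes `E`
  have hfixE : ∀ σ ∈ Γc, φ σ • E = E := by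
    intro σ hσ
    apply huniq _ (SemiAut.smul_nonneg _ hE0)
    have h1 : φ σ • Pic0.mk D' = Pic0.mk D' := hσ
    rw [SemiAut.smul_mk] at h1
    have h2 := QuotientAddGroup.eq.mp h1
    rw [AddSubgroup.mem_addSubgroupOf] at h2
    have h3 : -(φ σ • (D' : Divisor K' F')) + (D' : Divisor K' F') ∈
        Divisor.principal (K := K') (F := F') := h2
    have h4 := SemiAut.smul_mem_principal (φ σ) hEp
    have h5 : φ σ • (Finsupp.single P0 m : Divisor K' F') = Finsupp.single P0 m := by
      rw [SemiAut.smul_single, hP0, hφ, conj_smul_eps]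
    have h6 : φ σ • E - ((D' : Divisor K' F') + Finsupp.single P0 m) =
        φ σ • (E - ((D' : Divisor K' F') + Finsupp.single P0 m)) -
          (-(φ σ • (D' : Divisor K' F')) + (D' : Divisor K' F')) := by
      rw [smul_sub, smul_add, h5]
      abel
    rw [h6]
    exact AddSubgroup.sub_mem _ h4 h3
  -- the support of `E` consists of rational places
  have hsupp : ∀ w ∈ E.support, ∃ v : Place K F, w = eps K' F' v := by
    intro w hw
    obtain ⟨Γ₁, hΓ₁, hfix⟩ := Rigidity.exists_finiteIndex_fixing φ Γc w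
      (E.support : Set (Place K' F')) (Finset.finite_toSet _) (by
        intro σ hσ
        rw [Finset.mem_coe, Finsupp.mem_support_iff, ← hfixE σ hσ, SemiAut.smul_apply_smul]
        exact Finsupp.mem_support_iff.mp hw)
    exact exists_eq_eps_of_fixed hF w Γ₁ hfix
  obtain ⟨E₀, hE₀⟩ := exists_epsDiv_eq E hsupp
  -- degrees
  have hdegp : Divisor.degree (E - ((D' : Divisor K' F') + Finsupp.single P0 m)) = 0 := by
    obtain ⟨f, -, hf⟩ := hEp
    exact degree_eq_zero_of_forall_ord hf
  have hD'0 : Divisor.degree (D' : Divisor K' F') = 0 := D'.2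
  have hdegE : Divisor.degree E = m := by
    rw [map_sub, map_add, hD'0, Divisor.degree_single, deg_eq_one] at hdegp
    simp at hdegp
    linarith
  have hdeg0 : Divisor.degree (E₀ - Finsupp.single v0 m) = 0 := by
    rw [map_sub, ← degree_epsDiv (K' := K') (F' := F') E₀, hE₀, hdegE, Divisor.degree_single,
      deg_eq_one]
    simp
  refine ⟨Pic0.mk ⟨E₀ - Finsupp.single v0 m, hdeg0⟩, ?_⟩
  have hmap : epsDiv K' F' (E₀ - Finsupp.single v0 m) = E - Finsupp.single P0 m := by
    have h : epsDiv K' F' (Finsupp.single v0 m) = Finsupp.single (eps K' F' v0) m :=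
      Finsupp.mapDomain_single
    rw [map_sub, hE₀, h]
  show QuotientAddGroup.map _ _ _ _ (QuotientAddGroup.mk _) = QuotientAddGroup.mk _
  rw [QuotientAddGroup.map_mk, QuotientAddGroup.eq, AddSubgroup.mem_addSubgroupOf]
  show -(epsDiv K' F' (E₀ - Finsupp.single v0 m)) + (D' : Divisor K' F') ∈
    Divisor.principal (K := K') (F := F')
  rw [hmap]
  have h7 : -(E - Finsupp.single P0 m) + (D' : Divisor K' F') =
      -(E - ((D' : Divisor K' F') + Finsupp.single P0 m)) := by abel
  rw [h7]
  exact AddSubgroup.neg_mem _ hEp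


/-- `Aut(K'/K)` fixes the classes coming from the small field. -/
theorem conj_smul_pic0Map (σ : K' ≃ₐ[K] K') (c₀ : Pic0 K F) :
    conj K F K' F' σ • pic0Map K F K' F' c₀ = pic0Map K F K' F' c₀ := by
  obtain ⟨D, rfl⟩ := Pic0.mk_surjective c₀
  have h : pic0Map K F K' F' (Pic0.mk D) =
      Pic0.mk ⟨epsDiv K' F' (D : Divisor K F), by
        rw [Divisor.mem_degZero, degree_epsDiv]; exact D.2⟩ := rfl
  rw [h, SemiAut.smul_mk]
  congr 1
  apply Subtype.ext
  rw [SemiAut.coe_degZeroSMulHom]
  exact conj_smul_epsDiv σ _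

/-- Division by `n` descends from the big field to the small one. -/
theorem exists_nsmul_eq_of_pic0Map (hF : ∃ x : F, Transcendental K x) (hR' : RiemannThm K' F')
    (n : ℕ) (hfin : Finite (Pic0.torsion K' F' n)) (c₀ : Pic0 K F) (d : Pic0 K' F')
    (hd : n • d = pic0Map K F K' F' c₀) : ∃ d₀ : Pic0 K F, n • d₀ = c₀ := by
  classical
  have hs : ((fun t : Pic0 K' F' => d + t) '' (Pic0.torsion K' F' n : Set (Pic0 K' F'))).Finite :=
    (Set.toFinite _).image _
  have hΓ := Rigidity.finiteIndex_comap_stabilizer (conj K F K' F') d _ hs (fun σ => by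
    refine ⟨conj K F K' F' σ • d - d, ?_, by show d + (_ - d) = _; abel⟩
    rw [SetLike.mem_coe, Pic0.mem_torsion, natCast_zsmul, nsmul_sub, hd,
      smul_comm n (conj K F K' F' σ) d, hd, conj_smul_pic0Map, sub_self])
  obtain ⟨d₀, hd₀⟩ := exists_pic0Map_eq_of_finiteIndex hF hR' d hΓ
  refine ⟨d₀, pic0Map_injective (K := K) (F := F) (K' := K') (F' := F') ?_⟩
  rw [map_nsmul, hd₀, hd]

end Fermat.Agent.Lib.PicDiv
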