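/-
Lib / PicDiv (helper49): `Pic0` of a function field of one variable over an algebraically closed field
of characteristic zero is a DIVISIBLE group.
File `Main`: the general case, by the Lefschetz principle of S27 / Part H.

EXPORT: `Fermat.Agent.Lib.PicDiv.exists_nsmul_eq`.
-/
import Fermat.Agent.S27.General
import Fermat.Agent.Lib.PicDiv.Complex
import Fermat.Agent.Lib.PicDiv.Rigidity

set_option autoImplicit false
set_option linter.style.haveILetI false

noncomputable section

namespace Fermat.Agent.Lib.PicDiv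

open AlgebraicCurve Fermat.Agent.S24.FF IntermediateField Fermat.Agent.S27 Fermat.Agent.S27.H
open scoped TensorProduct

universe u1 u2

/-- The case of a constant field which embeds into `ℂ`. -/
theorem exists_nsmul_eq_of_embeds (K : Type u1) (F : Type u2) [Field K] [Field F]
    [Algebra K F] [IsAlgClosed K] [CharZero K] [IsFF1 K F] (hK : Nonempty (K →+* ℂ))
    (hF : ∃ x : F, Transcendental K x) (n : ℕ) (hn : 0 < n) (c : Pic0 K F) :
    ∃ d : Pic0 K F, n • d = c := by
  obtain ⟨φ⟩ := hK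
  letI : Algebra K ℂ := φ.toAlgebra
  obtain ⟨F', _, _, _, _, _, _, hce⟩ := exists_constExt.{u1, u2, 0} K F ℂ
  haveI := hce
  haveI : IsFF1 ℂ F' := isFF1_of_isConstExt K F ℂ F' hF
  have hF' : ∃ x : F', Transcendental ℂ x := by
    obtain ⟨x, hx⟩ := hF
    exact ⟨_, transcendental_algebraMap (K' := ℂ) (F' := F') hx⟩
  haveI : NonConst ℂ F' := ⟨hF'⟩
  have h1 : Nat.card (Pic0.torsion ℂ F' n) = n ^ (2 * genusFF ℂ F') := card_torsion_complex F' n hn
  have hfin : Finite (Pic0.torsion ℂ F' n) := by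
    apply Nat.finite_of_card_ne_zero
    rw [h1]
    exact (pow_pos hn _).ne'
  obtain ⟨d, hd⟩ := exists_nsmul_eq_complex n hn (pic0Map K F ℂ F' c)
  exact exists_nsmul_eq_of_pic0Map hF (riemannThm ℂ F' hF') n hfin c d hd

/-- **Divisibility of `Pic0`** over an algebraically closed field of characteristic zero. -/
theorem exists_nsmul_eq (K : Type u1) (F : Type u2) [Field K] [Field F] [Algebra K F]
    [IsAlgClosed K] [CharZero K] [IsFF1 K F] [NonConst K F] (n : ℕ) (hn : 0 < n) (c : Pic0 K F) :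
    ∃ d : Pic0 K F, n • d = c := by
  classical
  have hF : ∃ x : F, Transcendental K x := NonConst.out
  obtain ⟨D, rfl⟩ := Pic0.mk_surjective c
  obtain ⟨K₁, F₁, _, _, _, _, _, _, _, _, h1, h2, h3, h4, hx, hce, hT⟩ :=
    exists_descent K F hF (D : Divisor K F).support
  haveI := h1
  haveI := h2
  haveI := h4
  haveI := hce
  obtain ⟨c₀, hc₀⟩ := H.Main.exists_pic0Map_eq_mk (K := K₁) (F := F₁) D hT
  obtain ⟨d₀, hd₀⟩ := exists_nsmul_eq_of_embeds K₁ F₁ h3 hx n hn c₀
  refine ⟨pic0Map K₁ F₁ K F d₀, ?_⟩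
  rw [← map_nsmul, hd₀, hc₀]

/-- `Pic0` is a divisible group (integer version). -/
theorem exists_zsmul_eq (K : Type u1) (F : Type u2) [Field K] [Field F] [Algebra K F]
    [IsAlgClosed K] [CharZero K] [IsFF1 K F] [NonConst K F] (n : ℤ) (hn : n ≠ 0) (c : Pic0 K F) :
    ∃ d : Pic0 K F, n • d = c := by
  obtain ⟨d, hd⟩ := exists_nsmul_eq K F n.natAbs (Int.natAbs_pos.2 hn) c
  rcases Int.natAbs_eq n with h | h
  · exact ⟨d, by rw [h, natCast_zsmul, hd]⟩
  · exact ⟨-d, by rw [h, neg_smul, smul_neg, neg_neg, natCast_zsmul, hd]⟩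

end Fermat.Agent.Lib.PicDiv
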